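import Mathlib
import Fermat.Agent.LT.T7.H816.IotaSpec

/-!
# Row LT, tower T7, leaf C2.4 `IotaC305`: `σ_𝔸 ∘ ι = ι`, GENERAL form (helper1)

OFF-MAIN.  Complete proofs, nothing assumed.  ADDITIVE (new names only, suffix `H1G`).

`fixedG_H1G`: for EVERY data of the comparison `D` (no hypothesis on the degree, NO hypothesis
"totally complex": real places of `K` are allowed), every pre-base change `ι`
(`H816.IsPreBase816`) and the local form of the adelic automorphism (`H305.SigmaLocC305 K'`):
`σ_𝔸 (ι x) = ι x`.  It serves the cubic step (`H816.FixedC816`, adapter `fixedC816_H1G`) AND the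
quadratic step `F/ℚ`.

Proof, componentwise.  Finite place `w' = σ(w)`, `v` under both: `s_w ∘ i_w` and `i_{w'}` are ring
homomorphisms `K_v → K'_{w'}` which agree on `K` and satisfy `|·| = |x|^e`, `|·| = |x|^{e'}`:
their difference `d` vanishes on `K`, so `|d(c)| = |d(c - y)| ≤ |c - y|` for `y ∈ K` close to
`c`, hence `d = 0` (NO continuity of `i` is needed).  Infinite place `w'`: both sides are
`c(x_v)` with `c ∈ {id, conj}`; they agree on `K`; if the two `c` differ then `v(K) ⊆ ℝ`, `v` is
real and `x_v` is real.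
-/

set_option autoImplicit false
set_option linter.unusedSectionVars false
set_option linter.unusedVariables false
set_option linter.style.haveILetI false

open AutomorphicForm IsDedekindDomain NumberField MeasureTheory
open scoped ComplexConjugate

noncomputable section

namespace Fermat.Agent.LT.T7.H1G

open Fermat.Agent.LT.H556 Fermat.Agent.LT.H556.A0 Fermat.Agent.LT.T7
open Fermat.Agent.LT.T7.H305 Fermat.Agent.LT.T7.H816

variable {K K' : Type} [Field K] [NumberField K] [Field K'] [NumberField K'] [Algebra K K']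

/-! ## 1. Extensionality for adeles -/

/-- Two adeles with the same components are equal. -/
theorem adl_ext_H1G {L : Type} [Field L] [NumberField L] {a b : Adl L}
    (hi : ∀ w : InfinitePlace L, T5.infHom w a = T5.infHom w b)
    (hf : ∀ v : HeightOneSpectrum (𝓞 L), T5.finHom v a = T5.finHom v b) : a = b := by
  refine Prod.ext ?_ ?_
  · funext w
    exact (InfinitePlace.Completion.extensionEmbedding w).injective (hi w)
  · exact FiniteAdeleRing.ext (R := 𝓞 L) (K := L) fun v => hf v

/-! ## 2. `σ` fixes `K`; the places under `w` and `σ w` -/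

/-- `σ` fixes the image of `K`. -/
theorem sigma_algebraMap_H1G {D : CompData K K'} (hD : IsCompData D) (y : K) :
    D.s.σ (algebraMap K K' y) = algebraMap K K' y :=
  (hD.cyc.fixed _).1 ((hD.base _).2 ⟨y, rfl⟩)

/-- `σ_𝔸 ∘ ι = ι` on the principal adeles. -/
theorem fixed_rat_H1G {D : CompData K K'} (hD : IsCompData D) {ι : Adl K →+* Adl K'}
    (hι : IsPreBase816 ι) (y : K) :
    D.s.σA (ι (algebraMap K (Adl K) y)) = ι (algebraMap K (Adl K) y) := by
  rw [hι.rat, D.s.compat, sigma_algebraMap_H1G hD]

/-- The place `σ⁻¹ w'`. -/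
def preP_H1G (s : T5.AdelicAut K') (w' : HeightOneSpectrum (𝓞 K')) :
    HeightOneSpectrum (𝓞 K') where
  asIdeal := Ideal.comap (NumberField.RingOfIntegers.mapRingEquiv s.σ) w'.asIdeal
  isPrime := Ideal.comap_isPrime _ _
  ne_bot := by
    intro h
    apply w'.ne_bot
    have h2 : Ideal.map (NumberField.RingOfIntegers.mapRingEquiv s.σ)
        (Ideal.comap (NumberField.RingOfIntegers.mapRingEquiv s.σ) w'.asIdeal) = w'.asIdeal :=
      Ideal.map_comap_of_surjective _ (RingEquiv.surjective _) _
    rw [← h2, h, Ideal.map_bot]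

theorem placeRel_preP_H1G (s : T5.AdelicAut K') (w' : HeightOneSpectrum (𝓞 K')) :
    T5.PlaceRel s (preP_H1G s w') w' :=
  (Ideal.map_comap_of_surjective _ (RingEquiv.surjective _) _).symm

/-- The place of `K` under `w'`. -/
def underP_H1G (w' : HeightOneSpectrum (𝓞 K')) : HeightOneSpectrum (𝓞 K) where
  asIdeal := w'.asIdeal.under (𝓞 K)
  isPrime := inferInstance
  ne_bot := Ideal.under_ne_bot (𝓞 K) w'.ne_bot

theorem placeOver_underP_H1G (w' : HeightOneSpectrum (𝓞 K')) :
    PlaceOver K K' (underP_H1G (K := K) w') w' := by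
  intro x y hxy
  have hy : y = algebraMap (𝓞 K) (𝓞 K') x := by
    apply NumberField.RingOfIntegers.ext
    rw [hxy]
    rfl
  rw [hy]
  exact Ideal.mem_comap

/-- `σ⁻¹ w'` lies over the same place of `K` as `w'`. -/
theorem placeOver_preP_H1G {D : CompData K K'} (hD : IsCompData D)
    {v : HeightOneSpectrum (𝓞 K)} {w' : HeightOneSpectrum (𝓞 K')} (h : PlaceOver K K' v w') :
    PlaceOver K K' v (preP_H1G D.s w') := by
  intro x y hxy
  rw [h x y hxy]
  show y ∈ w'.asIdeal ↔ y ∈ Ideal.comap (NumberField.RingOfIntegers.mapRingEquiv D.s.σ) w'.asIdeal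
  rw [Ideal.mem_comap]
  have : NumberField.RingOfIntegers.mapRingEquiv D.s.σ y = y := by
    apply NumberField.RingOfIntegers.ext
    show D.s.σ (y : K') = (y : K')
    rw [hxy]
    exact sigma_algebraMap_H1G hD _
  rw [this]

/-! ## 3. The finite places -/

open WithZeroTopology in
/-- Two ring homomorphisms `K_v → B` into a valued field which multiply the valuation by
positive powers and agree on `K` are equal. -/
theorem eq_of_val_of_rat_H1G (v : HeightOneSpectrum (𝓞 K)) {B : Type} [Field B]
    [Valued B (WithZero (Multiplicative ℤ))]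
    (f g : v.adicCompletion K →+* B) (e e' : ℕ) (he : 0 < e) (he' : 0 < e')
    (hf : ∀ c, Valued.v (f c) = Valued.v c ^ e) (hg : ∀ c, Valued.v (g c) = Valued.v c ^ e')
    (hfg : ∀ y : K, f (algebraMap K (v.adicCompletion K) y)
      = g (algebraMap K (v.adicCompletion K) y)) (c : v.adicCompletion K) : f c = g c := by
  by_contra hne
  have hd : f c - g c ≠ 0 := sub_ne_zero.2 hne
  set γ : WithZero (Multiplicative ℤ) := Valued.v (f c - g c) with hγ
  have hγ0 : γ ≠ 0 := (Valuation.ne_zero_iff _).2 hd
  -- a rational point close to `c`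
  have hcont : Continuous fun c' : v.adicCompletion K => Valued.v (c' - c) :=
    (Valued.continuous_valuation_of_surjective
      (HeightOneSpectrum.valuedAdicCompletion_surjective K v)).comp
      (continuous_id.sub continuous_const)
  have hopen : IsOpen {c' : v.adicCompletion K | Valued.v (c' - c) < min γ 1} := by
    exact (WithZeroTopology.isOpen_Iio (a := min γ 1)).preimage hcont
  have hmem : c ∈ {c' : v.adicCompletion K | Valued.v (c' - c) < min γ 1} := by
    show Valued.v (c - c) < min γ 1
    rw [sub_self, map_zero]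
    exact lt_min (zero_lt_iff.2 hγ0) zero_lt_one
  obtain ⟨_, hy1, ⟨y, rfl⟩⟩ := (v.denseRange_algebraMap K).inter_open_nonempty _ hopen ⟨c, hmem⟩
  have hy : Valued.v (algebraMap K (v.adicCompletion K) y - c) < min γ 1 := hy1
  set t : v.adicCompletion K := c - algebraMap K (v.adicCompletion K) y with ht
  have hvt : Valued.v t < min γ 1 := by
    rw [ht, ← neg_sub, Valuation.map_neg]
    exact hy
  have hvt1 : Valued.v t ≤ 1 := (hvt.trans_le (min_le_right _ _)).le
  have hvtγ : Valued.v t < γ := hvt.trans_le (min_le_left _ _)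
  have hdiff : f c - g c = f t - g t := by
    rw [ht, map_sub, map_sub, hfg y]
    ring
  have hpow : ∀ n : ℕ, 0 < n → Valued.v t ^ n ≤ Valued.v t := by
    intro n hn
    obtain ⟨m, rfl⟩ : ∃ m, n = m + 1 := ⟨n - 1, by omega⟩
    rw [pow_succ]
    calc Valued.v t ^ m * Valued.v t ≤ 1 * Valued.v t :=
          mul_le_mul_left (pow_le_one' hvt1 m) _
      _ = Valued.v t := one_mul _
  have hle : γ ≤ Valued.v t := by
    rw [hγ, hdiff]
    refine (Valuation.map_sub _ _ _).trans (max_le ?_ ?_)
    · rw [hf]
      exact hpow e he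
    · rw [hg]
      exact hpow e' he'
  exact absurd hvtγ (not_lt.2 hle)

/-- The finite components of `σ_𝔸 (ι x)` and of `ι x` agree. -/
theorem fixed_fin_H1G {D : CompData K K'} (hD : IsCompData D) (hS : SigmaLocC305 K')
    {ι : Adl K →+* Adl K'} (hι : IsPreBase816 ι) (x : Adl K) (w' : HeightOneSpectrum (𝓞 K')) :
    T5.finHom w' (D.s.σA (ι x)) = T5.finHom w' (ι x) := by
  obtain ⟨sw, hsw1, hsw2, hsw3⟩ := (hS D.s).1 (preP_H1G D.s w') w' (placeRel_preP_H1G D.s w')
  have hv' : PlaceOver K K' (underP_H1G (K := K) w') w' := placeOver_underP_H1G w'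
  have hv : PlaceOver K K' (underP_H1G (K := K) w') (preP_H1G D.s w') :=
    placeOver_preP_H1G hD hv'
  obtain ⟨e, i, he, hi1, hi2, hi3⟩ := hι.fin _ _ hv
  obtain ⟨e', i', he', hi1', hi2', hi3'⟩ := hι.fin _ _ hv'
  rw [hsw3, hi3, hi3']
  refine eq_of_val_of_rat_H1G (underP_H1G (K := K) w')
    ((sw : _ →+* w'.adicCompletion K').comp i) i' e e' he he' ?_ hi2' ?_ _
  · intro c
    show Valued.v (sw (i c)) = _
    rw [hsw2, hi2]
  · intro y
    show sw (i _) = i' _
    rw [hi1, hsw1, hi1', sigma_algebraMap_H1G hD]

/-! ## 4. The infinite places -/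

/-- The component at a real place is real. -/
theorem conj_infHom_of_isReal_H1G {v : InfinitePlace K} (hv : v.IsReal) (x : Adl K) :
    conj (T5.infHom v x) = T5.infHom v x := by
  have h : T5.infHom v x
      = ((InfinitePlace.Completion.extensionEmbeddingOfIsReal hv (x.1 v) : ℝ) : ℂ) :=
    (InfinitePlace.Completion.extensionEmbeddingOfIsReal_apply hv _).symm
  rw [h, Complex.conj_ofReal]

/-- The component of a principal adele. -/
theorem infHom_algebraMap_H1G (v : InfinitePlace K) (y : K) :
    T5.infHom v (algebraMap K (Adl K) y) = v.embedding y := by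
  show InfinitePlace.Completion.extensionEmbedding v _ = _
  exact InfinitePlace.Completion.extensionEmbedding_coe v _

/-- If `conj` fixes the image of `K` at `v` then `v` is real. -/
theorem isReal_of_conj_H1G {v : InfinitePlace K}
    (h : ∀ y : K, conj (v.embedding y) = v.embedding y) : v.IsReal := by
  rw [InfinitePlace.isReal_iff, ComplexEmbedding.isReal_iff]
  ext y
  exact h y

/-- The infinite components of `σ_𝔸 (ι x)` and of `ι x` agree. -/
theorem fixed_inf_H1G {D : CompData K K'} (hD : IsCompData D) (hS : SigmaLocC305 K')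
    {ι : Adl K →+* Adl K'} (hι : IsPreBase816 ι) (x : Adl K) (w' : InfinitePlace K') :
    T5.infHom w' (D.s.σA (ι x)) = T5.infHom w' (ι x) := by
  set w'' : InfinitePlace K' := w'.comap (D.s.σ : K' →+* K') with hw''
  set v : InfinitePlace K := w'.comap (algebraMap K K') with hv
  have hvv : w''.comap (algebraMap K K') = v := by
    rw [hw'', hv, ← InfinitePlace.comap_comp]
    congr 1
    ext y
    exact sigma_algebraMap_H1G hD y
  -- the three local forms
  have h2 := (hS D.s).2 w'
  have h1 := hι.inf w''
  have h3 := hι.inf w'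
  rw [hvv] at h1
  -- the identity on the principal adeles
  have hrat : ∀ y : K, T5.infHom w' (D.s.σA (ι (algebraMap K (Adl K) y)))
      = T5.infHom w' (ι (algebraMap K (Adl K) y)) := fun y => by rw [fixed_rat_H1G hD hι]
  -- if `conj` fixes the image of `K`, every component at `v` is real
  have hreal : (∀ y : K, conj (v.embedding y) = v.embedding y) →
      conj (T5.infHom v x) = T5.infHom v x := fun h =>
    conj_infHom_of_isReal_H1G (isReal_of_conj_H1G h) x
  have hcc : ∀ z : ℂ, conj (conj z) = z := fun z => Complex.conj_conj z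
  rcases h2 with h2 | h2 <;> rcases h1 with h1 | h1 <;> rcases h3 with h3 | h3
  · rw [h2, h1, h3]
  · rw [h2, h1, h3]
    refine (hreal fun y => ?_).symm
    have := hrat y
    rw [h2, h1, h3, infHom_algebraMap_H1G] at this
    exact this.symm
  · rw [h2, h1, h3]
    refine hreal fun y => ?_
    have := hrat y
    rw [h2, h1, h3, infHom_algebraMap_H1G] at this
    exact this
  · rw [h2, h1, h3]
  · rw [h2, h1, h3]
    refine hreal fun y => ?_
    have := hrat y
    rw [h2, h1, h3, infHom_algebraMap_H1G] at this
    exact this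
  · rw [h2, h1, h3]
  · rw [h2, h1, h3, hcc]
  · rw [h2, h1, h3, hcc]
    refine (hreal fun y => ?_).symm
    have := hrat y
    rw [h2, h1, h3, hcc, infHom_algebraMap_H1G] at this
    exact this.symm

/-! ## 5. The statement -/

/-- **`σ_𝔸 ∘ ι = ι`, general form** (no hypothesis on the infinite places or on the degree). -/
theorem fixedG_H1G (D : CompData K K') (hD : IsCompData D) (hS : SigmaLocC305 K')
    (ι : Adl K →+* Adl K') (hι : IsPreBase816 ι) (x : Adl K) : D.s.σA (ι x) = ι x :=
  adl_ext_H1G (fun w' => fixed_inf_H1G hD hS hι x w') (fun w' => fixed_fin_H1G hD hS hι x w')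

/-- **ADAPTER: the leaf I.3 of helper816** (`H816.FixedC816`, VERBATIM). -/
theorem fixedC816_H1G : FixedC816 K K' :=
  fun D hD _ _ hS ι hι x => fixedG_H1G D hD hS ι hι x

end Fermat.Agent.LT.T7.H1G

end
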